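/-
S12 programme, brick LOC-P (helper78), part 1: the abstract dichotomy.

`ρ : G →* End_k V`, `χ : G →* kˣ`, a "trace function" `a` with `ρ g + χ(g) ρ g⁻¹ = a(g)` for all `g`
(the shape of `Embed48.ESide.exists_trace_fun`, which needs NO irreducibility), `N ⊂ V` a line
spanned by `t` with trivial action on `V / N` (`ρ g x - x ∈ N`), `N ≠ V`.  Then `G` acts on `t`
either trivially or through `χ`.
-/
import Mathlib

set_option autoImplicit false

namespace Fermat.Agent.S12P.LocP78.Abstract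

variable {G k V : Type*} [Group G] [Field k] [AddCommGroup V] [Module k V]

/-- **The dichotomy**: on a cofixed line the action is trivial or given by `χ`. -/
theorem fixed_or_char (ρ : G →* Module.End k V) (χ : G →* kˣ) (a : G → k)
    (ha : ∀ g, ρ g + ((χ g : kˣ) : k) • ρ g⁻¹ = a g • (1 : Module.End k V))
    (N : Submodule k V) (hcof : ∀ g x, ρ g x - x ∈ N)
    {x₀ : V} (hx₀ : x₀ ∉ N) {t : V} (htN : t ∈ N) (ht0 : t ≠ 0)
    (hline : ∀ s ∈ N, ∃ c : k, s = c • t) :
    (∀ g, ρ g t = t) ∨ (∀ g, ρ g t = ((χ g : kˣ) : k) • t) := by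
  -- the relation, pointwise
  have hrel : ∀ g x, ρ g x + ((χ g : kˣ) : k) • ρ g⁻¹ x = a g • x := by
    intro g x
    have := LinearMap.congr_fun (ha g) x
    simpa only [LinearMap.add_apply, LinearMap.smul_apply, Module.End.one_apply] using this
  -- step 1: `a g = 1 + χ g`
  have h1 : ∀ g, a g = 1 + ((χ g : kˣ) : k) := by
    intro g
    by_contra hne
    have hmem : (a g - (1 + ((χ g : kˣ) : k))) • x₀ ∈ N := by
      have e : (a g - (1 + ((χ g : kˣ) : k))) • x₀ =
          (ρ g x₀ - x₀) + ((χ g : kˣ) : k) • (ρ g⁻¹ x₀ - x₀) := by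
        rw [sub_smul, ← hrel g x₀, add_smul, one_smul, smul_sub]; abel
      rw [e]
      exact N.add_mem (hcof g x₀) (N.smul_mem _ (hcof g⁻¹ x₀))
    have hc : a g - (1 + ((χ g : kˣ) : k)) ≠ 0 := sub_ne_zero.mpr hne
    have := N.smul_mem (a g - (1 + ((χ g : kˣ) : k)))⁻¹ hmem
    rw [smul_smul, inv_mul_cancel₀ hc, one_smul] at this
    exact hx₀ this
  -- step 2: elementwise dichotomy
  have h2 : ∀ g, ρ g t = t ∨ ρ g t = ((χ g : kˣ) : k) • t := by
    intro g
    have hgt : ρ g t ∈ N := by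
      have := N.add_mem (hcof g t) htN
      rwa [sub_add_cancel] at this
    have hgit : ρ g⁻¹ t ∈ N := by
      have := N.add_mem (hcof g⁻¹ t) htN
      rwa [sub_add_cancel] at this
    obtain ⟨ψ, hψ⟩ := hline _ hgt
    obtain ⟨ψ', hψ'⟩ := hline _ hgit
    have hinv : ψ * ψ' = 1 := by
      have e : ρ g⁻¹ (ρ g t) = t := by
        rw [← Module.End.mul_apply, ← map_mul, inv_mul_cancel, map_one, Module.End.one_apply]
      rw [hψ, map_smul, hψ', smul_smul] at e
      have e' : (ψ * ψ' - 1) • t = 0 := by rw [sub_smul, one_smul, e, sub_self]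
      exact sub_eq_zero.mp ((smul_eq_zero.mp e').resolve_right ht0)
    have hr := hrel g t
    rw [hψ, hψ', h1 g, smul_smul] at hr
    have hr' : (ψ + ((χ g : kˣ) : k) * ψ' - (1 + ((χ g : kˣ) : k))) • t = 0 := by
      rw [sub_smul, add_smul, hr, sub_self]
    have hsum : ψ + ((χ g : kˣ) : k) * ψ' = 1 + ((χ g : kˣ) : k) :=
      sub_eq_zero.mp ((smul_eq_zero.mp hr').resolve_right ht0)
    have hquad : (ψ - 1) * (ψ - ((χ g : kˣ) : k)) = 0 := by
      linear_combination ψ * hsum - ((χ g : kˣ) : k) * hinv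
    rcases mul_eq_zero.mp hquad with e | e
    · left; rw [hψ, sub_eq_zero.mp e, one_smul]
    · right; rw [hψ, sub_eq_zero.mp e]
  -- step 3: a group is not the union of two proper subgroups
  by_contra hcon
  rw [not_or] at hcon
  obtain ⟨hc1, hc2⟩ := hcon
  rw [not_forall] at hc1 hc2
  obtain ⟨g, hg⟩ := hc1
  obtain ⟨h, hh⟩ := hc2
  have hg' : ρ g t = ((χ g : kˣ) : k) • t := (h2 g).resolve_left hg
  have hh' : ρ h t = t := (h2 h).resolve_right hh
  have hχg : ((χ g : kˣ) : k) ≠ 1 := fun e => hg (by rw [hg', e, one_smul])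
  have hχh : ((χ h : kˣ) : k) ≠ 1 := fun e => hh (by rw [hh', e, one_smul])
  have hgh : ρ (g * h) t = ((χ g : kˣ) : k) • t := by
    rw [map_mul, Module.End.mul_apply, hh', hg']
  rcases h2 (g * h) with e | e
  · rw [hgh] at e
    have e' : (((χ g : kˣ) : k) - 1) • t = 0 := by rw [sub_smul, one_smul, e, sub_self]
    exact hχg (sub_eq_zero.mp ((smul_eq_zero.mp e').resolve_right ht0))
  · rw [hgh, map_mul, Units.val_mul] at e
    have e' : (((χ g : kˣ) : k) * (1 - ((χ h : kˣ) : k))) • t = 0 := by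
      rw [mul_sub, mul_one, sub_smul, ← e, sub_self]
    rcases mul_eq_zero.mp ((smul_eq_zero.mp e').resolve_right ht0) with e1 | e1
    · exact (χ g).ne_zero e1
    · exact hχh (sub_eq_zero.mp e1).symm

/-- In a plane, a proper subspace containing a nonzero `t` consists of multiples of `t`. -/
theorem exists_smul_of_finrank_two [Module.Finite k V] (h2 : Module.finrank k V = 2)
    (N : Submodule k V) (htop : N ≠ ⊤) {t : V} (htN : t ∈ N) (ht0 : t ≠ 0) :
    ∀ s ∈ N, ∃ c : k, s = c • t := by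
  have hlt : Module.finrank k N < 2 := h2 ▸ Submodule.finrank_lt htop
  have hpos : 0 < Module.finrank k N := by
    rw [Module.finrank_pos_iff_exists_ne_zero]
    exact ⟨⟨t, htN⟩, fun h => ht0 (congrArg Subtype.val h)⟩
  have h1 : Module.finrank k N = 1 := by omega
  intro s hs
  have ht0' : (⟨t, htN⟩ : N) ≠ 0 := fun h => ht0 (congrArg Subtype.val h)
  obtain ⟨c, hc⟩ := exists_smul_eq_of_finrank_eq_one h1 ht0' ⟨s, hs⟩
  exact ⟨c, (congrArg Subtype.val hc).symm⟩

end Fermat.Agent.S12P.LocP78.Abstract
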