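/-
S12 programme, brick LOC-P (helper78), part 2: the inertia group at a place `A | p` of `ℚ̄` acts
non-trivially on `μ_p` (`p` odd).

If `I_A` fixed a primitive `p`-th root of unity `ζ`, then `ζ - 1` (a non-unit of `A`) would be
divisible by `p` in `A` (`ES.P36.UnrFixed1.div_natCast_mem_of_fixed`: inertia-fixed elements live in
an extension unramified at `A`); but `p ∣ (ζ - 1)²·A` (from `1 + ζ + ⋯ + ζ^(p-1) = 0`), so
`v(p) ≤ v(ζ-1)² ≤ v(p)·v(ζ-1) < v(p)`.
-/
import Mathlib
import Fermat.Prelude.Def_FLTPrelim_Ramification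
import Fermat.Agent.S05.Inertia
import Fermat.Agent.ES.J.CycloChar8
import Fermat.Agent.ES.P36.UnrFixed1

set_option autoImplicit false

namespace Fermat.Agent.S12P.LocP78.Cyclo

local notation "Qb" => AlgebraicClosure ℚ

open Fermat.Agent.S05 Fermat.Agent.ES.J.CycloChar8

section Ring

variable {R : Type*} [CommRing R]

theorem exists_one_add_pow (π : R) (n : ℕ) :
    ∃ T : R, (1 + π) ^ n = 1 + n * π + π ^ 2 * T := by
  induction n with
  | zero => exact ⟨0, by simp⟩
  | succ n ih =>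
    obtain ⟨T, hT⟩ := ih
    refine ⟨T + n + π * T, ?_⟩
    rw [pow_succ, hT]
    push_cast
    ring

theorem exists_geom_sum (π : R) (n : ℕ) :
    ∃ S : R, ∑ i ∈ Finset.range n, (1 + π) ^ i =
      n + ((∑ i ∈ Finset.range n, i : ℕ) : R) * π + π ^ 2 * S := by
  induction n with
  | zero => exact ⟨0, by simp⟩
  | succ n ih =>
    obtain ⟨S, hS⟩ := ih
    obtain ⟨T, hT⟩ := exists_one_add_pow π n
    refine ⟨S + T, ?_⟩
    rw [Finset.sum_range_succ, Finset.sum_range_succ, hS, hT]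
    push_cast
    ring

end Ring

variable {A : ValuationSubring Qb} {p : ℕ}

/-- `v(ζ - 1) < 1` and `v(p) ≤ v(ζ - 1)²` for a primitive `p`-th root of unity, `p` odd. -/
theorem val_zeta_sub_one (hp : p.Prime) (hp2 : p ≠ 2) (hA : A.LiesOverPrime p) {ζ : Qb}
    (hζ : IsPrimitiveRoot ζ p) :
    A.valuation (ζ - 1) < 1 ∧ A.valuation (p : Qb) ≤ A.valuation (ζ - 1) ^ 2 := by
  have hodd : Odd p := hp.odd_of_ne_two hp2
  have hζA : ζ ∈ A := mem_of_pow_eq_one hp.ne_zero hζ.pow_eq_one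
  have hvp : A.valuation (p : Qb) < 1 := Inertia.valuation_prime_lt_one hA
  set z : A := ⟨ζ, hζA⟩ with hz
  have hzp : z ^ p = 1 := Subtype.ext (by
    rw [SubmonoidClass.coe_pow]; exact hζ.pow_eq_one)
  -- (a)
  have ha : A.valuation (ζ - 1) < 1 := by
    obtain ⟨r, hr⟩ := exists_add_pow_prime_eq hp z (-1)
    rw [hzp, hodd.neg_one_pow] at hr
    have hr' : (ζ - 1) ^ p = (p : Qb) * ((-(z * r) : A) : Qb) := by
      have := congrArg Subtype.val hr
      have e1 : (((z + -1) ^ p : A) : Qb) = (ζ - 1) ^ p := by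
        push_cast; rw [hz]; ring
      have e2 : ((1 + -1 + (p : A) * z * -1 * r : A) : Qb) = (p : Qb) * ((-(z * r) : A) : Qb) := by
        push_cast; ring
      rw [e1, e2] at this
      exact this
    have hle : A.valuation (ζ - 1) ^ p ≤ A.valuation (p : Qb) := by
      rw [← map_pow, hr', map_mul]
      calc A.valuation (p : Qb) * A.valuation ((-(z * r) : A) : Qb)
          ≤ A.valuation (p : Qb) * 1 := by
            gcongr
            exact A.valuation_le_one _
        _ = _ := mul_one _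
    by_contra hcon
    have h1 : (1 : A.ValueGroup) ≤ A.valuation (ζ - 1) ^ p := one_le_pow₀ (not_lt.mp hcon)
    exact absurd (lt_of_le_of_lt (h1.trans hle) hvp) (lt_irrefl _)
  refine ⟨ha, ?_⟩
  -- (b)
  obtain ⟨m, hm⟩ := hodd
  obtain ⟨S, hS⟩ := exists_geom_sum (z - 1) p
  have hsum : (∑ i ∈ Finset.range p, i) = p * m := by
    have h := Finset.sum_range_id_mul_two p
    have h1 : p - 1 = m * 2 := by omega
    rw [h1, ← mul_assoc] at h
    exact Nat.eq_of_mul_eq_mul_right (by norm_num) h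
  have hgeom : ∑ i ∈ Finset.range p, ζ ^ i = 0 := hζ.geom_sum_eq_zero hp.one_lt
  have hS' : (0 : Qb) = (p : Qb) * (1 + (m : Qb) * (ζ - 1)) + (ζ - 1) ^ 2 * (S : Qb) := by
    have := congrArg Subtype.val hS
    have e1 : ((∑ i ∈ Finset.range p, (1 + (z - 1)) ^ i : A) : Qb) = ∑ i ∈ Finset.range p, ζ ^ i := by
      push_cast
      refine Finset.sum_congr rfl fun i _ => ?_
      rw [hz]; ring
    rw [e1, hgeom, hsum] at this
    rw [this]
    push_cast
    rw [hz]
    ring
  have hunit : A.valuation (1 + (m : Qb) * (ζ - 1)) = 1 := by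
    apply Valuation.map_one_add_of_lt
    rw [map_mul]
    calc A.valuation (m : Qb) * A.valuation (ζ - 1) ≤ 1 * A.valuation (ζ - 1) := by
          gcongr
          exact Inertia.valuation_natCast_le_one m
      _ = A.valuation (ζ - 1) := one_mul _
      _ < 1 := ha
  have hpe : (p : Qb) * (1 + (m : Qb) * (ζ - 1)) = -((ζ - 1) ^ 2 * (S : Qb)) := by
    linear_combination -hS'
  have := congrArg A.valuation hpe
  rw [map_mul, hunit, mul_one, Valuation.map_neg, map_mul, map_pow] at this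
  rw [this]
  calc A.valuation (ζ - 1) ^ 2 * A.valuation (S : Qb) ≤ A.valuation (ζ - 1) ^ 2 * 1 := by
        gcongr
        exact A.valuation_le_one _
    _ = _ := mul_one _

/-- The inertia group at `A | p` moves every primitive `p`-th root of unity (`p` odd). -/
theorem exists_mem_inertia_apply_ne (hp : p.Prime) (hp2 : p ≠ 2) (hA : A.LiesOverPrime p) {ζ : Qb}
    (hζ : IsPrimitiveRoot ζ p) : ∃ σ ∈ A.inertiaSubgroupIn ℚ, σ ζ ≠ ζ := by
  by_contra hcon
  push Not at hcon
  obtain ⟨h1, h2⟩ := val_zeta_sub_one hp hp2 hA hζ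
  have hfix : ∀ τ ∈ A.inertiaSubgroupIn ℚ, τ (ζ - 1) = ζ - 1 := by
    intro τ hτ
    rw [map_sub, map_one, hcon τ hτ]
  have hmem := Fermat.Agent.ES.P36.UnrFixed1.div_natCast_mem_of_fixed A hp hA (ζ - 1) hfix
    ((ValuationSubring.mem_nonunits_iff (A := A)).mpr h1)
  have hp0 : (p : Qb) ≠ 0 := Nat.cast_ne_zero.mpr hp.ne_zero
  have hvp0 : 0 < A.valuation (p : Qb) := by
    rw [pos_iff_ne_zero, ne_eq, map_eq_zero]; exact hp0
  have hle : A.valuation (ζ - 1) ≤ A.valuation (p : Qb) := by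
    have := (ValuationSubring.valuation_le_one_iff A _).mpr hmem
    rw [map_div₀] at this
    exact (div_le_one₀ hvp0).mp this
  have hlt : A.valuation (ζ - 1) ^ 2 < A.valuation (p : Qb) := by
    rw [sq]
    calc A.valuation (ζ - 1) * A.valuation (ζ - 1) ≤ A.valuation (p : Qb) * A.valuation (ζ - 1) := by
          gcongr
      _ < A.valuation (p : Qb) * 1 := by
          exact mul_lt_mul_of_pos_left h1 hvp0
      _ = _ := mul_one _
  exact absurd (lt_of_le_of_lt h2 hlt) (lt_irrefl _)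

/-- **The mod `p` cyclotomic character is non-trivial on the inertia group at `A | p`.** -/
theorem exists_mem_inertia_cyclo_ne_one [hp : Fact p.Prime] (hp2 : p ≠ 2)
    (hA : A.LiesOverPrime p) :
    ∃ σ ∈ A.inertiaSubgroupIn ℚ,
      PadicInt.toZMod (((cyclo p σ : ℤ_[p]ˣ) : ℤ_[p])) ≠ 1 := by
  obtain ⟨ζ, hζ1⟩ := exists_primitiveRoot p 1
  have hζ : IsPrimitiveRoot ζ p := by rwa [pow_one] at hζ1
  obtain ⟨σ, hσ, hne⟩ := exists_mem_inertia_apply_ne hp.out hp2 hA hζ
  refine ⟨σ, hσ, fun h1 => hne ?_⟩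
  have hspec := cyclo_spec p σ (n := 1) ζ (by rw [pow_one]; exact hζ.pow_eq_one)
  have hk : ((cyclo p σ : ℤ_[p]ˣ) : ℤ_[p]) - 1 ∈ RingHom.ker (PadicInt.toZMod (p := p)) := by
    rw [RingHom.mem_ker, map_sub, map_one, h1, sub_self]
  rw [PadicInt.ker_toZMod, PadicInt.maximalIdeal_eq_span_p] at hk
  have hk' : ((cyclo p σ : ℤ_[p]ˣ) : ℤ_[p]) - 1 ∈
      RingHom.ker (PadicInt.toZModPow (p := p) 1) := by
    rw [PadicInt.ker_toZModPow, pow_one]; exact hk
  rw [RingHom.mem_ker, map_sub, map_one, sub_eq_zero] at hk'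
  have hp1 : p ^ 1 ≠ 1 := by rw [pow_one]; exact hp.out.one_lt.ne'
  rw [hk', ZMod.val_one'' hp1, pow_one] at hspec
  exact hspec

end Fermat.Agent.S12P.LocP78.Cyclo
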