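/-
S12 programme, brick LOC-P (helper78), part 3: **the cofixed line of the Frey curve lies in the kernel
of reduction at `p`.**

`P : FreyPackage`, `A` a valuation subring of `ℚ̄` over `P.p`, `N ⊂ E[p]` a Galois-stable line with
trivial action on `E[p] / N` (the data of `HasGaloisStableCofixedLine`).  Then `N ≤ S13.FreyE1.V1 P A`
(the `p`-torsion in the kernel of reduction at `A`): every nonzero `t ∈ N` has `x(t) ∉ A`, hence
`v_A (x(t) - e) = v_A (x(t))` for every `e ∈ A`, in particular for the three `2`-torsion abscissas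
`e = 0, a^p/4, -b^p/4`.

Proof (global, no formal groups): by `Embed48.ESide.exists_trace_fun` (Eichler–Shimura relation +
Frobenius density, NO irreducibility) `ρ g + χ̄(g) ρ g⁻¹` is a scalar for every `g ∈ G_ℚ`; on a
cofixed line this forces `G_ℚ` to act on `N` trivially or through `χ̄` (`Abstract.fixed_or_char`).
The first case is a rational point of order `p` (excluded by `S13.RatTors2`); in the second, an
inertial `σ` at `A` with `χ̄(σ) ≠ 1` (`Cyclo.exists_mem_inertia_cyclo_ne_one`) gives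
`(χ̄(σ) - 1) t = σ t - t ∈ V1` (`S13.FreyE1.close_at_p`).
-/
import Mathlib
import Fermat.Prelude.Def_FLTPrelim_CofixedLine
import Fermat.Agent.S12P.LocP78.Abstract
import Fermat.Agent.S12P.LocP78.Cyclo
import Fermat.Agent.T1B.Embed48.ESide
import Fermat.Agent.FrobRel.RelQbar
import Fermat.Agent.S06.FreyModel
import Fermat.Agent.S13.FreyE1
import Fermat.Agent.S13.Supersingular
import Fermat.Agent.S13.RatBridge
import Fermat.Agent.S13.RatTors2
import Fermat.Agent.MAZ.EF86.ModInv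

set_option autoImplicit false
set_option linter.style.haveILetI false

open WeierstrassCurve WeierstrassCurve.Affine WeierstrassCurve.Affine.Point

namespace Fermat.Agent.S12P.LocP78

local notation "Qbar" => AlgebraicClosure ℚ

open Fermat.Agent.S13 Fermat.Agent.S05 Fermat.Agent.T1B.Embed48
open Fermat.Agent.MAZ.ModInv

variable (P : FreyPackage)

/-- **LOC-P, submodule form**: a Galois-stable cofixed line of `E[p]` lies in the kernel of
reduction at every place above `p`. -/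
theorem le_V1 {A : ValuationSubring Qbar} (hA : A.LiesOverPrime P.p)
    (N : Submodule (ZMod P.p) (Submodule.torsionBy ℤ (P.freyCurve⁄Qbar).Point P.p))
    (hbot : N ≠ ⊥) (htop : N ≠ ⊤)
    (hcof : ∀ σ : Qbar ≃ₐ[ℚ] Qbar,
      ∀ x : Submodule.torsionBy ℤ (P.freyCurve⁄Qbar).Point P.p, σ • x - x ∈ N) :
    N ≤ FreyE1.V1 P A := by
  haveI : Fact P.p.Prime := ⟨P.pp⟩
  have hp2 : P.p ≠ 2 := by have := P.hp5; omega
  have hΔ : P.freyCurve.Δ ≠ 0 := Supersingular.freyCurve_Δ_ne_zero P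
  have hW := Fermat.Agent.S06.FreyModel.freyCurveInt_isIntegralModelOf P
  obtain ⟨a, ha⟩ := ESide.exists_trace_fun hΔ hW (Fermat.Agent.FrobRel.relQbar _) hp2
  haveI := ESide.module_finite_tors P.freyCurve P.p hp2
  have h2 := ESide.finrank_tors P.freyCurve P.p hΔ hp2
  obtain ⟨t, htN, ht0⟩ := Submodule.exists_mem_ne_zero_of_ne_bot hbot
  obtain ⟨x₀, hx₀⟩ : ∃ x₀ : Submodule.torsionBy ℤ (P.freyCurve⁄Qbar).Point P.p, x₀ ∉ N := by
    by_contra h
    push Not at h
    exact htop (eq_top_iff.mpr fun x _ => h x)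
  have hline := Abstract.exists_smul_of_finrank_two h2 N htop htN ht0
  rcases Abstract.fixed_or_char (ESide.rhoE P.freyCurve P.p) (ESide.cycloBar P.p) a ha N
    (fun g x => hcof g x) hx₀ htN ht0 hline with hfix | hchar
  · -- a rational point of order `p`
    exact absurd (RatBridge.no_fixed_torsion_of_no_rational P.freyCurve P.p
      (fun x y h => RatTors2.no_rational_torsion_coord P x y h) t (fun σ => hfix σ)) ht0
  · obtain ⟨σ, hσ, hne⟩ := Cyclo.exists_mem_inertia_cyclo_ne_one hp2 hA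
    have hclose := FreyE1.close_at_p P hA hσ t
    have e : σ • t - t = (((ESide.cycloBar P.p σ : (ZMod P.p)ˣ) : ZMod P.p) - 1) • t := by
      rw [sub_smul, one_smul, ← hchar σ]; rfl
    rw [e] at hclose
    have hu : ((ESide.cycloBar P.p σ : (ZMod P.p)ˣ) : ZMod P.p) - 1 ≠ 0 := sub_ne_zero.mpr hne
    have htV : t ∈ FreyE1.V1 P A := by
      have := (FreyE1.V1 P A).smul_mem
        (((ESide.cycloBar P.p σ : (ZMod P.p)ˣ) : ZMod P.p) - 1)⁻¹ hclose
      rwa [smul_smul, inv_mul_cancel₀ hu, one_smul] at this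
    intro s hs
    obtain ⟨c, rfl⟩ := hline s hs
    exact (FreyE1.V1 P A).smul_mem c htV

/-- **LOC-P**: every nonzero point of a cofixed line has a pole at `A | p` in its `x`-coordinate. -/
theorem one_lt_valuation_xco {A : ValuationSubring Qbar} (hA : A.LiesOverPrime P.p)
    (N : Submodule (ZMod P.p) (Submodule.torsionBy ℤ (P.freyCurve⁄Qbar).Point P.p))
    (hbot : N ≠ ⊥) (htop : N ≠ ⊤)
    (hcof : ∀ σ : Qbar ≃ₐ[ℚ] Qbar,
      ∀ x : Submodule.torsionBy ℤ (P.freyCurve⁄Qbar).Point P.p, σ • x - x ∈ N)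
    {t : Submodule.torsionBy ℤ (P.freyCurve⁄Qbar).Point P.p} (htN : t ∈ N) (ht0 : t ≠ 0) :
    1 < A.valuation (xco (P.freyCurve⁄Qbar) (t : (P.freyCurve⁄Qbar).Point)) := by
  have hV := le_V1 P hA N hbot htop hcof htN
  obtain ⟨t, ht⟩ := t
  cases t with
  | zero => exact absurd (Subtype.ext rfl) ht0
  | some x y h => exact FreyE1.one_lt_of_mem_V1 P hV rfl

/-- `x(t) ∉ A`. -/
theorem xco_not_mem {A : ValuationSubring Qbar} (hA : A.LiesOverPrime P.p)
    (N : Submodule (ZMod P.p) (Submodule.torsionBy ℤ (P.freyCurve⁄Qbar).Point P.p))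
    (hbot : N ≠ ⊥) (htop : N ≠ ⊤)
    (hcof : ∀ σ : Qbar ≃ₐ[ℚ] Qbar,
      ∀ x : Submodule.torsionBy ℤ (P.freyCurve⁄Qbar).Point P.p, σ • x - x ∈ N)
    {t : Submodule.torsionBy ℤ (P.freyCurve⁄Qbar).Point P.p} (htN : t ∈ N) (ht0 : t ≠ 0) :
    xco (P.freyCurve⁄Qbar) (t : (P.freyCurve⁄Qbar).Point) ∉ A := by
  intro hmem
  have h1 := (ValuationSubring.valuation_le_one_iff A _).mpr hmem
  exact absurd (one_lt_valuation_xco P hA N hbot htop hcof htN ht0) (not_lt.mpr h1)

/-- **Corollary**: `v_A (x(t) - e) = v_A (x(t))` for every `e ∈ A`. -/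
theorem valuation_xco_sub {A : ValuationSubring Qbar} (hA : A.LiesOverPrime P.p)
    (N : Submodule (ZMod P.p) (Submodule.torsionBy ℤ (P.freyCurve⁄Qbar).Point P.p))
    (hbot : N ≠ ⊥) (htop : N ≠ ⊤)
    (hcof : ∀ σ : Qbar ≃ₐ[ℚ] Qbar,
      ∀ x : Submodule.torsionBy ℤ (P.freyCurve⁄Qbar).Point P.p, σ • x - x ∈ N)
    {t : Submodule.torsionBy ℤ (P.freyCurve⁄Qbar).Point P.p} (htN : t ∈ N) (ht0 : t ≠ 0)
    {e : Qbar} (he : e ∈ A) :
    A.valuation (xco (P.freyCurve⁄Qbar) (t : (P.freyCurve⁄Qbar).Point) - e) =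
      A.valuation (xco (P.freyCurve⁄Qbar) (t : (P.freyCurve⁄Qbar).Point)) := by
  have h1 := one_lt_valuation_xco P hA N hbot htop hcof htN ht0
  have h2 := (ValuationSubring.valuation_le_one_iff A _).mpr he
  exact Valuation.map_sub_eq_of_lt_left _ (lt_of_le_of_lt h2 h1)

/-- `a^p / 4 ∈ A` and `b^p / 4 ∈ A` for `A | p` (`p` odd). -/
theorem intCast_div_four_mem {A : ValuationSubring Qbar} (hA : A.LiesOverPrime P.p) (n : ℤ) :
    (n : Qbar) / 4 ∈ A := by
  have hp2 : P.p ≠ 2 := by have := P.hp5; omega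
  have h2 : A.valuation (2 : Qbar) = 1 := Inertia.valuation_two_eq_one P.pp hA hp2
  have h4 : A.valuation (4 : Qbar) = 1 := FreyE1.val_four A.valuation h2
  rw [← ValuationSubring.valuation_le_one_iff, map_div₀, h4, div_one]
  exact Inertia.valuation_intCast_le_one n

/-- **Corollary for the three `2`-torsion abscissas** `e = 0, a^p/4, -b^p/4`:
`v_A (x(t)) = v_A (x(t) - a^p/4) = v_A (x(t) + b^p/4)`. -/
theorem valuation_xco_sub_two_torsion {A : ValuationSubring Qbar} (hA : A.LiesOverPrime P.p)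
    (N : Submodule (ZMod P.p) (Submodule.torsionBy ℤ (P.freyCurve⁄Qbar).Point P.p))
    (hbot : N ≠ ⊥) (htop : N ≠ ⊤)
    (hcof : ∀ σ : Qbar ≃ₐ[ℚ] Qbar,
      ∀ x : Submodule.torsionBy ℤ (P.freyCurve⁄Qbar).Point P.p, σ • x - x ∈ N)
    {t : Submodule.torsionBy ℤ (P.freyCurve⁄Qbar).Point P.p} (htN : t ∈ N) (ht0 : t ≠ 0) :
    A.valuation (xco (P.freyCurve⁄Qbar) (t : (P.freyCurve⁄Qbar).Point) - (P.a : Qbar) ^ P.p / 4) =
        A.valuation (xco (P.freyCurve⁄Qbar) (t : (P.freyCurve⁄Qbar).Point)) ∧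
    A.valuation (xco (P.freyCurve⁄Qbar) (t : (P.freyCurve⁄Qbar).Point) + (P.b : Qbar) ^ P.p / 4) =
        A.valuation (xco (P.freyCurve⁄Qbar) (t : (P.freyCurve⁄Qbar).Point)) := by
  constructor
  · have he : (P.a : Qbar) ^ P.p / 4 ∈ A := by
      have := intCast_div_four_mem P hA (P.a ^ P.p)
      rwa [Int.cast_pow] at this
    exact valuation_xco_sub P hA N hbot htop hcof htN ht0 he
  · have he : -((P.b : Qbar) ^ P.p / 4) ∈ A := by
      have := intCast_div_four_mem P hA (P.b ^ P.p)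
      rw [Int.cast_pow] at this
      exact A.neg_mem _ this
    have := valuation_xco_sub P hA N hbot htop hcof htN ht0 he
    rwa [sub_neg_eq_add] at this

end Fermat.Agent.S12P.LocP78
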