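/-
S12 programme, brick LOC-P (helper78), bonus: `G_ℚ` acts on a cofixed line of the Frey curve through
the mod `p` cyclotomic character, i.e. `E[p] ~ [χ̄ *; 0 1]`.
-/
import Mathlib
import Fermat.Agent.S12P.LocP78.Main

set_option autoImplicit false
set_option linter.style.haveILetI false

open WeierstrassCurve WeierstrassCurve.Affine WeierstrassCurve.Affine.Point

namespace Fermat.Agent.S12P.LocP78

local notation "Qbar" => AlgebraicClosure ℚ

open Fermat.Agent.S13 Fermat.Agent.S05 Fermat.Agent.T1B.Embed48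

variable (P : FreyPackage)

/-- `G_ℚ` acts on a cofixed line of `E[p]` (Frey curve) through the mod `p` cyclotomic character
`ESide.cycloBar` (`= toZMod ∘ ES.J.CycloChar8.cyclo`). -/
theorem smul_eq_cycloBar_smul
    (N : Submodule (ZMod P.p) (Submodule.torsionBy ℤ (P.freyCurve⁄Qbar).Point P.p))
    (hbot : N ≠ ⊥) (htop : N ≠ ⊤)
    (hcof : ∀ σ : Qbar ≃ₐ[ℚ] Qbar,
      ∀ x : Submodule.torsionBy ℤ (P.freyCurve⁄Qbar).Point P.p, σ • x - x ∈ N)
    (σ : Qbar ≃ₐ[ℚ] Qbar) {s : Submodule.torsionBy ℤ (P.freyCurve⁄Qbar).Point P.p} (hs : s ∈ N) :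
    haveI : Fact P.p.Prime := ⟨P.pp⟩
    σ • s = ((ESide.cycloBar P.p σ : (ZMod P.p)ˣ) : ZMod P.p) • s := by
  haveI : Fact P.p.Prime := ⟨P.pp⟩
  have hp2 : P.p ≠ 2 := by have := P.hp5; omega
  have hΔ : P.freyCurve.Δ ≠ 0 := Supersingular.freyCurve_Δ_ne_zero P
  have hW := Fermat.Agent.S06.FreyModel.freyCurveInt_isIntegralModelOf P
  obtain ⟨a, ha⟩ := ESide.exists_trace_fun hΔ hW (Fermat.Agent.FrobRel.relQbar _) hp2
  haveI := ESide.module_finite_tors P.freyCurve P.p hp2
  have h2 := ESide.finrank_tors P.freyCurve P.p hΔ hp2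
  obtain ⟨t, htN, ht0⟩ := Submodule.exists_mem_ne_zero_of_ne_bot hbot
  obtain ⟨x₀, hx₀⟩ : ∃ x₀ : Submodule.torsionBy ℤ (P.freyCurve⁄Qbar).Point P.p, x₀ ∉ N := by
    by_contra h
    push Not at h
    exact htop (eq_top_iff.mpr fun x _ => h x)
  have hline := Abstract.exists_smul_of_finrank_two h2 N htop htN ht0
  rcases Abstract.fixed_or_char (ESide.rhoE P.freyCurve P.p) (ESide.cycloBar P.p) a ha N
    (fun g x => hcof g x) hx₀ htN ht0 hline with hfix | hchar
  · exact absurd (RatBridge.no_fixed_torsion_of_no_rational P.freyCurve P.p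
      (fun x y h => RatTors2.no_rational_torsion_coord P x y h) t (fun σ => hfix σ)) ht0
  · obtain ⟨c, rfl⟩ := hline s hs
    have e : σ • t = ((ESide.cycloBar P.p σ : (ZMod P.p)ˣ) : ZMod P.p) • t := hchar σ
    have e2 : σ • (c • t) = c • (σ • t) := (ESide.rhoE P.freyCurve P.p σ).map_smul c t
    rw [e2, e, smul_smul, smul_smul, mul_comm]

end Fermat.Agent.S12P.LocP78
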