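/-
S12 programme, brick LOC-P (helper78), K-ASM form: the three factors `X`, `4X - a^p`, `X + b^p/4`
(`X = x(k • t)`, `t` a generator of the cofixed line, `p ∤ k`) have the SAME valuation at every place
`A | p` (and `X` has a pole there).  Twin at `ℓ = p` of `LocUnit28.frey_units_nsmul` (`ℓ ≠ p`).
-/
import Mathlib
import Fermat.Agent.S12P.LocP78.Main

set_option autoImplicit false
set_option linter.style.haveILetI false

open WeierstrassCurve WeierstrassCurve.Affine WeierstrassCurve.Affine.Point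

namespace Fermat.Agent.S12P.LocP78

local notation "Qbar" => AlgebraicClosure ℚ

open Fermat.Agent.S13 Fermat.Agent.S05
open Fermat.Agent.MAZ.ModInv

variable (P : FreyPackage)

/-- multiples `k • t`, `p ∤ k`, of a nonzero element of `E[p]` are nonzero. -/
theorem nsmul_ne_zero_of_not_dvd
    {t : Submodule.torsionBy ℤ (P.freyCurve⁄Qbar).Point P.p} (ht0 : t ≠ 0) {k : ℕ}
    (hk : ¬ P.p ∣ k) : k • t ≠ 0 := by
  haveI : Fact P.p.Prime := ⟨P.pp⟩
  intro h
  rw [← Nat.cast_smul_eq_nsmul (ZMod P.p)] at h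
  rcases smul_eq_zero.mp h with h1 | h1
  · exact hk ((ZMod.natCast_eq_zero_iff k P.p).mp h1)
  · exact ht0 h1

/-- **LOC-P, K-ASM form.** -/
theorem frey_vals_nsmul {A : ValuationSubring Qbar} (hA : A.LiesOverPrime P.p)
    (N : Submodule (ZMod P.p) (Submodule.torsionBy ℤ (P.freyCurve⁄Qbar).Point P.p))
    (hbot : N ≠ ⊥) (htop : N ≠ ⊤)
    (hcof : ∀ σ : Qbar ≃ₐ[ℚ] Qbar,
      ∀ x : Submodule.torsionBy ℤ (P.freyCurve⁄Qbar).Point P.p, σ • x - x ∈ N)
    {t : Submodule.torsionBy ℤ (P.freyCurve⁄Qbar).Point P.p} (htN : t ∈ N) (ht0 : t ≠ 0)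
    {k : ℕ} (hk : ¬ P.p ∣ k) :
    1 < A.valuation (xco (P.freyCurve⁄Qbar) (k • (t : (P.freyCurve⁄Qbar).Point))) ∧
    A.valuation (4 * xco (P.freyCurve⁄Qbar) (k • (t : (P.freyCurve⁄Qbar).Point))
        - (P.a : Qbar) ^ P.p) =
      A.valuation (xco (P.freyCurve⁄Qbar) (k • (t : (P.freyCurve⁄Qbar).Point))) ∧
    A.valuation (xco (P.freyCurve⁄Qbar) (k • (t : (P.freyCurve⁄Qbar).Point))
        + (P.b : Qbar) ^ P.p / 4) =
      A.valuation (xco (P.freyCurve⁄Qbar) (k • (t : (P.freyCurve⁄Qbar).Point))) := by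
  have hkN : k • t ∈ N := N.nsmul_mem htN k
  have hk0 : k • t ≠ 0 := nsmul_ne_zero_of_not_dvd P ht0 hk
  have hcoe : ((k • t : Submodule.torsionBy ℤ (P.freyCurve⁄Qbar).Point P.p) :
      (P.freyCurve⁄Qbar).Point) = k • (t : (P.freyCurve⁄Qbar).Point) := rfl
  have h1 := one_lt_valuation_xco P hA N hbot htop hcof hkN hk0
  obtain ⟨h2, h3⟩ := valuation_xco_sub_two_torsion P hA N hbot htop hcof hkN hk0
  rw [hcoe] at h1 h2 h3
  refine ⟨h1, ?_, h3⟩
  have hp2 : P.p ≠ 2 := by have := P.hp5; omega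
  have hv2 : A.valuation (2 : Qbar) = 1 := Inertia.valuation_two_eq_one P.pp hA hp2
  have hv4 : A.valuation (4 : Qbar) = 1 := FreyE1.val_four A.valuation hv2
  have e : 4 * xco (P.freyCurve⁄Qbar) (k • (t : (P.freyCurve⁄Qbar).Point)) - (P.a : Qbar) ^ P.p
      = 4 * (xco (P.freyCurve⁄Qbar) (k • (t : (P.freyCurve⁄Qbar).Point))
          - (P.a : Qbar) ^ P.p / 4) := by ring
  rw [e, map_mul, hv4, one_mul, h2]

/-- the valuation of `2` (hence of `2 ^ (p - 1)`) at `A | p` is `1`. -/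
theorem valuation_two_pow {A : ValuationSubring Qbar} (hA : A.LiesOverPrime P.p) (n : ℕ) :
    A.valuation ((2 : Qbar) ^ n) = 1 := by
  have hp2 : P.p ≠ 2 := by have := P.hp5; omega
  rw [map_pow, Inertia.valuation_two_eq_one P.pp hA hp2, one_pow]

end Fermat.Agent.S12P.LocP78
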